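import Fermat.Agent.S37.Rim.H383.NormalLift
import Fermat.Agent.S18.H438.Front.Regular
import Fermat.Agent.S18.H425.GoodModelInv

/-!
# A2 / MOD, producer of `GoodRedAt` (helper456), part A: normality from a good model

In the language of the frozen `S18/Alg/Spec.lean` (sub-objects of one field `Ω`):

`normal_of_goodModel` : for a `GoodModel Lc Ec Fc R V w x S`, every `v ∈ V` which is integral
over the chart `chart Fc R x` modulo `w` (a monic `Q` with coefficients in the chart and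
`Q(v) ∈ w V`) is congruent modulo `w V` to an element of the chart.
(= the special fibre of the chart is a normal domain with fraction field the residue field of `V`.)

`normal_inv_of_goodModel` : the same on the chart at infinity `chart Fc R x⁻¹`.

Proof: `S37.Rim.H383.exists_chart_lift` (typed normality lift, consumer of S18 b2) on the typed
objects of `S18.H438.GoodModelFront`.
-/

set_option autoImplicit false
set_option linter.style.haveILetI false
set_option linter.unusedSectionVars false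
set_option maxHeartbeats 800000

noncomputable section

namespace Fermat.Agent.A2.Mod.H456

open Polynomial Fermat.Agent.S18 Fermat.Agent.S18.Alg Fermat.Agent.S18.H438
open Fermat.Agent.S18.H438.GoodModelFront

variable {Ω : Type*} [Field Ω] {Lc Ec Fc : Subfield Ω} {R V : Subring Ω} {w x : Ω}
  {S : Finset Ω}

section

attribute [local instance] FractionRing.liftAlgebra

/-- **Normality of the special fibre of the finite chart of a good model** (elementwise). -/
theorem normal_of_goodModel (G : GoodModel Lc Ec Fc R V w x S) {v : Ω} (hv : v ∈ V)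
    (Q : Polynomial Ω) (hQ : Q.Monic) (hQc : ∀ i, Q.coeff i ∈ chart Fc R x)
    (hQv : Q.eval v * w⁻¹ ∈ V) :
    ∃ b ∈ chart Fc R x, (v - b) * w⁻¹ ∈ V := by
  classical
  haveI := charZero_Fc G
  haveI := isDiscreteValuationRing_Rf G
  haveI := finiteDimensional_fractionRing G
  haveI : IsIntegrallyClosed (S37.Rim.H383.chartB (Rf Fc R) (xf G)) :=
    chartRing_isIntegrallyClosed (Rf Fc R) (xf G)
  haveI : Module.Finite (Algebra.adjoin (Rf Fc R) ({xf G} : Set Fc))
      (S37.Rim.H383.chartB (Rf Fc R) (xf G)) :=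
    chartRing_finite (Rf Fc R) (xf G) (transcendental_xf G)
  have hRF : ∀ r ∈ R, r ∈ Fc := fun r hr => R_le_Fc G hr
  have hx := transcendental_xf G
  -- every element of `Fc` is algebraic over `R[x]`
  have halg : ∀ f : Fc, IsAlgebraic (Algebra.adjoin (Rf Fc R) ({xf G} : Set Fc)) f := by
    intro f
    haveI : IsFractionRing (chartRing (Rf Fc R) (xf G)) Fc :=
      chartRing_isFractionRing (Rf Fc R) (xf G)
    obtain ⟨a, b, -, rfl⟩ := IsFractionRing.div_surjective (chartRing (Rf Fc R) (xf G)) f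
    have ha : IsIntegral (baseRing (Rf Fc R) (xf G)) (a : Fc) := a.2
    have hb : IsIntegral (baseRing (Rf Fc R) (xf G)) (b : Fc) := b.2
    rw [div_eq_mul_inv]
    exact (ha.isAlgebraic).mul (IsAlgebraic.inv_iff.2 hb.isAlgebraic)
  -- separability, from the field `separable`
  have sepB : ∀ f ∈ S37.Rim.H383.chartB (Rf Fc R) (xf G), ∃ P : Polynomial Fc,
      (∀ i, P.coeff i ∈ Algebra.adjoin (Rf Fc R) ({xf G} : Set Fc)) ∧
      P.eval f * (wf G)⁻¹ ∈ Vf G ∧ (derivative P).eval f ≠ 0 ∧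
        ((derivative P).eval f)⁻¹ ∈ Vf G := by
    intro b hb
    have hb' : b ∈ chartRing (Rf Fc R) (xf G) := hb
    have hbV : b ∈ Vf G :=
      chartRing_le_valuationSubring (Rf Fc R) (xf G) (Vf G) (Rf_le_Vf G) (xf_mem_Vf G) hb'
    obtain ⟨P₀, hc, h1, h2, h3⟩ := G.separable (b : Ω) hbV
    have hlift : P₀ ∈ Polynomial.lifts Fc.subtype := by
      rw [Polynomial.lifts_iff_coeff_lifts]
      intro n
      obtain ⟨a, -, h⟩ := exists_mem_baseRing_of_mem_polyRing Fc R (xf G) hRF (hc n)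
      exact ⟨a, h⟩
    obtain ⟨P, hP⟩ := (Polynomial.mem_lifts _).1 hlift
    have hcoe : ∀ i, ((P.coeff i : Fc) : Ω) = P₀.coeff i := fun i => by
      rw [← hP, Polynomial.coeff_map]; rfl
    have hcoeff : ∀ i, P.coeff i ∈ baseRing (Rf Fc R) (xf G) := fun i =>
      (mem_baseRing_iff Fc R (xf G) hRF).2 (by rw [hcoe]; exact hc i)
    have hd : (((derivative P).eval b : Fc) : Ω) = (derivative P₀).eval (b : Ω) := by
      rw [coe_eval_Fc, ← Polynomial.derivative_map, hP]
    refine ⟨P, hcoeff, ?_, ?_, ?_⟩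
    · show ((P.eval b : Fc) : Ω) * w⁻¹ ∈ V
      rw [coe_eval_Fc, hP]
      exact h1
    · intro h0
      apply h2
      rw [← hd, h0]
      rfl
    · show ((((derivative P).eval b)⁻¹ : Fc) : Ω) ∈ V
      rw [Subfield.coe_inv, hd]
      exact h3
  -- the elementwise NC condition, from `hNC_chart`
  have hNC : ∀ π : Polynomial (Rf Fc R), Prime π →
      ¬ Associated π (C (⟨wf G, wf_mem_Rf G⟩ : Rf Fc R)) →
      (∀ c ∈ SR Fc R S, ¬ Associated π (X - C c)) →
      ∀ f ∈ S37.Rim.H383.chartB (Rf Fc R) (xf G), ∀ n : ℕ,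
        f ^ n * (aeval (xf G) π)⁻¹ ∈ S37.Rim.H383.chartB (Rf Fc R) (xf G) →
          f * (aeval (xf G) π)⁻¹ ∈ S37.Rim.H383.chartB (Rf Fc R) (xf G) := by
    intro π hπ hπw hπS f hf n hfn
    have hrad := hNC_chart G π hπ hπw hπS
    have hπ0 : aeval (xf G) π ≠ 0 := fun h0 =>
      hπ.ne_zero ((transcendental_iff_injective.1 hx) (by rw [h0, map_zero]))
    have hfB : f ∈ H138.chart (Rf Fc R) ({xf G} : Set Fc) := hf
    have hfnB : f ^ n * (aeval (xf G) π)⁻¹ ∈ H138.chart (Rf Fc R) ({xf G} : Set Fc) := hfn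
    have hmem : (⟨f, hfB⟩ : H138.chart (Rf Fc R) ({xf G} : Set Fc)) ^ n ∈
        Ideal.span {(B12.H33.chartPolyHom (Rf Fc R) (xf G) π :
          H138.chart (Rf Fc R) ({xf G} : Set Fc))} := by
      rw [Ideal.mem_span_singleton]
      refine ⟨⟨_, hfnB⟩, ?_⟩
      apply Subtype.ext
      show f ^ n = ((B12.H33.chartPolyHom (Rf Fc R) (xf G) π :
        H138.chart (Rf Fc R) ({xf G} : Set Fc)) : Fc) * (f ^ n * (aeval (xf G) π)⁻¹)
      rw [B12.H33.coe_chartPolyHom]
      field_simp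
    have hmem' := hrad ⟨n, hmem⟩
    rw [Ideal.mem_span_singleton] at hmem'
    obtain ⟨c, hc⟩ := hmem'
    have hc' : f = aeval (xf G) π * (c : Fc) := by
      have := congrArg (fun t : H138.chart (Rf Fc R) ({xf G} : Set Fc) => (t : Fc)) hc
      simpa [B12.H33.coe_chartPolyHom] using this
    have : f * (aeval (xf G) π)⁻¹ = (c : Fc) := by
      rw [hc']
      field_simp
    rw [this]
    exact c.2
  have hvF : v ∈ Fc := G.V_le hv
  -- lift `Q` to `Fc[X]`
  have hQlift : Q ∈ Polynomial.lifts Fc.subtype := by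
    rw [Polynomial.lifts_iff_coeff_lifts]
    intro n
    exact ⟨⟨Q.coeff n, (hQc n).1⟩, rfl⟩
  obtain ⟨Q', hQ', -, hQ'm⟩ := Polynomial.lifts_and_degree_eq_and_monic hQlift hQ
  have hQ'coe : ∀ i, ((Q'.coeff i : Fc) : Ω) = Q.coeff i := fun i => by
    rw [← hQ', Polynomial.coeff_map]; rfl
  have hQ'c : ∀ i, Q'.coeff i ∈ S37.Rim.H383.chartB (Rf Fc R) (xf G) := by
    intro i
    have : Q'.coeff i ∈ chartRing (Rf Fc R) (xf G) := by
      rw [mem_chartRing_iff Fc R _ hRF, hQ'coe]
      exact hQc i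
    exact this
  have hQ'v : Q'.eval (⟨v, hvF⟩ : Fc) * (wf G)⁻¹ ∈ Vf G := by
    show ((Q'.eval (⟨v, hvF⟩ : Fc) : Fc) : Ω) * w⁻¹ ∈ V
    rw [coe_eval_Fc, hQ']
    exact hQv
  obtain ⟨b, hb, hbv⟩ := S37.Rim.H383.exists_chart_lift (R := Rf Fc R) (z := xf G) hx halg
    (Vf G) (wf_mem_Rf G) (irreducible_wf G) (Rf_le_Vf G) (xf_mem_Vf G)
    (wf_inv_not_mem_Vf G) (Vf_gen G) (qep_fin' G) sepB (SR Fc R S) (SR_isUnit_sub G) hNC
    (v := ⟨v, hvF⟩) hv Q' hQ'm hQ'c hQ'v
  refine ⟨(b : Ω), ?_, hbv⟩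
  have : b ∈ chartRing (Rf Fc R) (xf G) := hb
  rwa [mem_chartRing_iff Fc R _ hRF] at this

end

/-- **Normality of the special fibre of the chart at infinity of a good model**. -/
theorem normal_inv_of_goodModel (G : GoodModel Lc Ec Fc R V w x S) {v : Ω} (hv : v ∈ V)
    (Q : Polynomial Ω) (hQ : Q.Monic) (hQc : ∀ i, Q.coeff i ∈ chart Fc R x⁻¹)
    (hQv : Q.eval v * w⁻¹ ∈ V) :
    ∃ b ∈ chart Fc R x⁻¹, (v - b) * w⁻¹ ∈ V := by
  classical
  exact normal_of_goodModel (H425.goodModel_inv G) hv Q hQ hQc hQv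

end Fermat.Agent.A2.Mod.H456
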