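import Fermat.Agent.A2.Mod.H456.GoodRedDesc
import Fermat.Agent.A2.Mod.H456.NormalGM

/-!
# A2 / MOD, producer of `GoodRedAt` (helper456), part D: `GoodRedAt` from S18 good models

`goodRedAt_of_goodAt` : if the S18 family `Mod.H216.GoodAt M P (iota y) S` holds (a good model over
every number field), then `GoodRedAt P E M w VM y` holds for EVERY intermediate field `E` with
`R_E = P ∩ E` a DVR with uniformiser `w` (in particular for the finite extensions of the inertia
field used by A2), and every Gauss valuation ring `VM`.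

`goodRedAt_inv_of_goodAt` : the same in the chart at infinity `y⁻¹`.
-/

set_option autoImplicit false
set_option linter.style.haveILetI false
set_option linter.unusedSectionVars false
set_option synthInstance.maxHeartbeats 400000
set_option maxHeartbeats 1600000

noncomputable section

namespace Fermat.Agent.A2.Mod.H456

open ModularCurve AlgebraicCurve HahnSeries Polynomial
open Fermat.Agent.S18 Fermat.Agent.S18.Mod

variable {P : ValuationSubring Qb} {E : IntermediateField ℚ Qb} {M q : ℕ} {w : RE P E}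

/-! ### The uniformiser -/

theorem unif_mem (w : RE P E) : ((w : E) : Qb) ∈ P := w.2

theorem unif_ne_zero (hw : Irreducible w) : ((w : E) : Qb) ≠ 0 := by
  intro h
  apply hw.ne_zero
  apply Subtype.ext
  apply Subtype.ext
  exact h

/-- An element of `P ∩ E` whose quotient of `w` by it lies in `P` is either a unit or an
associate of `w`. -/
theorem unif_inv_not_mem (hw : Irreducible w) : (((w : E) : Qb))⁻¹ ∉ P := by
  intro h
  apply hw.not_isUnit
  have hE : ((w : E))⁻¹ ∈ RE P E := by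
    show algebraMap E Qb ((w : E))⁻¹ ∈ P
    rw [map_inv₀]
    exact h
  refine IsUnit.of_mul_eq_one (⟨(w : E)⁻¹, hE⟩ : RE P E) ?_
  apply Subtype.ext
  show (w : E) * (w : E)⁻¹ = 1
  exact mul_inv_cancel₀ (fun h0 => hw.ne_zero (Subtype.ext h0))

/-- `a ∈ P ∩ E`, `a⁻¹ ∉ P`  ⟹  `a / w ∈ P`. -/
theorem div_unif_mem (hw : Irreducible w) {a : Qb} (haP : a ∈ P) (haE : a ∈ E)
    (hinv : a⁻¹ ∉ P) : a * (((w : E) : Qb))⁻¹ ∈ P := by
  have hw0 := unif_ne_zero hw
  have ha0 : a ≠ 0 := by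
    rintro rfl
    apply hinv
    rw [inv_zero]
    exact zero_mem _
  rcases P.mem_or_inv_mem (a * (((w : E) : Qb))⁻¹) with h | h
  · exact h
  · -- `w = (w / a) * a` with `w / a, a ∈ R_E`
    have h' : ((w : E) : Qb) * a⁻¹ ∈ P := by
      have : (a * (((w : E) : Qb))⁻¹)⁻¹ = ((w : E) : Qb) * a⁻¹ := by
        rw [mul_inv, inv_inv, mul_comm]
      rw [← this]
      exact h
    let a' : RE P E := ⟨⟨a, haE⟩, haP⟩
    have hrE : (w : E) * (⟨a, haE⟩ : E)⁻¹ ∈ RE P E := by
      show algebraMap E Qb ((w : E) * (⟨a, haE⟩ : E)⁻¹) ∈ P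
      rw [map_mul, map_inv₀]
      exact h'
    let r : RE P E := ⟨(w : E) * (⟨a, haE⟩ : E)⁻¹, hrE⟩
    have ha'0 : (⟨a, haE⟩ : E) ≠ 0 := fun h0 => ha0 (congrArg Subtype.val h0)
    have hwr : w = r * a' := by
      apply Subtype.ext
      show (w : E) = (w : E) * (⟨a, haE⟩ : E)⁻¹ * (⟨a, haE⟩ : E)
      rw [mul_assoc, inv_mul_cancel₀ ha'0, mul_one]
    rcases hw.isUnit_or_isUnit hwr with hu | hu
    · -- `r` unit ⟹ `r⁻¹ = a / w ∈ P`
      obtain ⟨s, hs⟩ := hu.exists_right_inv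
      have hs' : (((w : E) : Qb) * a⁻¹) * ((s : E) : Qb) = 1 := by
        have h1 := congrArg (fun z : RE P E => algebraMap E Qb (z : E)) hs
        simp only [r] at h1
        have h2 : algebraMap E Qb (((⟨(w : E) * (⟨a, haE⟩ : E)⁻¹, hrE⟩ : RE P E) * s : RE P E) : E)
            = (((w : E) : Qb) * a⁻¹) * ((s : E) : Qb) := by
          show algebraMap E Qb (((w : E) * (⟨a, haE⟩ : E)⁻¹) * (s : E)) = _
          rw [map_mul, map_mul, map_inv₀]
          rfl
        rw [h2] at h1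
        rw [h1]
        show algebraMap E Qb (1 : E) = 1
        exact map_one _
      have hsa : a * (((w : E) : Qb))⁻¹ = ((s : E) : Qb) := by
        have h3 : (((w : E) : Qb) * a⁻¹)⁻¹ = ((s : E) : Qb) := by
          rw [eq_comm]
          exact eq_inv_of_mul_eq_one_right hs'
        rw [← h3, mul_inv, inv_inv, mul_comm]
      rw [hsa]
      exact unif_mem s
    · -- `a` unit ⟹ `a⁻¹ ∈ P`
      exfalso
      obtain ⟨s, hs⟩ := hu.exists_right_inv
      have hs' : a * ((s : E) : Qb) = 1 := by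
        have h1 := congrArg (fun z : RE P E => algebraMap E Qb (z : E)) hs
        have h2 : algebraMap E Qb ((a' * s : RE P E) : E) = a * ((s : E) : Qb) := by
          show algebraMap E Qb ((⟨a, haE⟩ : E) * (s : E)) = _
          rw [map_mul]
          rfl
        rw [h2] at h1
        rw [h1]
        show algebraMap E Qb (1 : E) = 1
        exact map_one _
      apply hinv
      have : a⁻¹ = ((s : E) : Qb) := by
        rw [eq_comm]
        exact eq_inv_of_mul_eq_one_right hs'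
      rw [this]
      exact unif_mem s

/-! ### Closure properties of the S18 chart -/

section ChartClosure

variable {Ω : Type*} [Field Ω] {F₀ : Subfield Ω} {R₀ : Subring Ω} {x₀ : Ω}

theorem chart_zero_mem : (0 : Ω) ∈ Alg.chart F₀ R₀ x₀ := ⟨zero_mem _, isIntegral_zero⟩

theorem chart_one_mem : (1 : Ω) ∈ Alg.chart F₀ R₀ x₀ := ⟨one_mem _, isIntegral_one⟩

theorem chart_add_mem {a b : Ω} (ha : a ∈ Alg.chart F₀ R₀ x₀) (hb : b ∈ Alg.chart F₀ R₀ x₀) :
    a + b ∈ Alg.chart F₀ R₀ x₀ := ⟨add_mem ha.1 hb.1, ha.2.add hb.2⟩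

theorem chart_sum_mem {ι : Type*} (s : Finset ι) {a : ι → Ω}
    (ha : ∀ i ∈ s, a i ∈ Alg.chart F₀ R₀ x₀) : ∑ i ∈ s, a i ∈ Alg.chart F₀ R₀ x₀ :=
  ⟨sum_mem fun i hi => (ha i hi).1, IsIntegral.sum _ fun i hi => (ha i hi).2⟩

end ChartClosure

/-! ### Comparison of uniformisers -/

section Compare

variable {E' : IntermediateField ℚ Qb} {V' : Subring (Om M)} {w' x : Om M} {S : Finset (Om M)}

/-- `w' = cst a` with `a ∈ P ∩ E'`, `a⁻¹ ∉ P`. -/
theorem exists_unif_rep (G : Alg.GoodModel (Lc M) (Ec M E') (Fc M E') (Rc M P E') V' w' x S) :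
    ∃ a : Qb, a ∈ P ∧ a ∈ E' ∧ a⁻¹ ∉ P ∧ H456.cst M a = w' := by
  obtain ⟨a, haP, haE, ha⟩ := (H456.mem_Rc_iff M P E').1 G.w_mem
  refine ⟨a, haP, haE, fun h => G.w_inv_not_mem ?_, ha⟩
  rw [← ha, ← map_inv₀]
  exact H456.cst_mem_Rc M P E' h (inv_mem haE)

theorem unif_compare₁ (hw : Irreducible w) (hwE : ((w : E) : Qb) ∈ E')
    (G : Alg.GoodModel (Lc M) (Ec M E') (Fc M E') (Rc M P E') V' w' x S) :
    H456.cst M ((w : E) : Qb) * w'⁻¹ ∈ Rc M P E' := by
  apply G.w_gen _ (H456.cst_mem_Rc M P E' (unif_mem w) hwE)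
  intro h
  rw [← map_inv₀] at h
  exact unif_inv_not_mem hw ((H456.cst_mem_Rc_iff M P E').1 h).1

theorem unif_compare₂ (hw : Irreducible w) (hE : E' ≤ E) (hwE : ((w : E) : Qb) ∈ E')
    (G : Alg.GoodModel (Lc M) (Ec M E') (Fc M E') (Rc M P E') V' w' x S) :
    w' * (H456.cst M ((w : E) : Qb))⁻¹ ∈ Rc M P E' := by
  obtain ⟨a, haP, haE, hinv, rfl⟩ := exists_unif_rep G
  rw [← map_inv₀, ← map_mul]
  exact H456.cst_mem_Rc M P E' (div_unif_mem hw haP (hE haE) hinv) (mul_mem haE (inv_mem hwE))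

theorem cst_unif_ne_zero (hw : Irreducible w) : H456.cst M ((w : E) : Qb) ≠ 0 := by
  intro h
  exact unif_ne_zero hw ((map_eq_zero (algebraMap Qb (Om M))).1 h)

/-- **Descent of the Gauss valuation ring**: `V∞ ∩ F_{M,E'} ⊆ V'`. -/
theorem mem_V_of_mem_Vinf (hE : E' ≤ E) {VM : ValuationSubring (FE E M)}
    (hV : IsVinf P E M VM) (hV' : (V' : Set (Om M)) = VcSet M P E')
    (G : Alg.GoodModel (Lc M) (Ec M E') (Fc M E') (Rc M P E') V' w' x S)
    {g : FE E M} (hg : g ∈ VM) (hgF : iota E M g ∈ Fc M E') : iota E M g ∈ V' := by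
  rcases G.V_total _ hgF with h | h
  · exact h
  · by_contra hn
    have h1 := G.V_gen _ h (by rwa [inv_inv])
    obtain ⟨a, haP, haE, hinv, rfl⟩ := exists_unif_rep G
    have h1' : (iota E M g)⁻¹ * (H456.cst M a)⁻¹ ∈ (V' : Set (Om M)) := h1
    rw [hV'] at h1'
    have h2 : (iota E M g)⁻¹ * (H456.cst M a)⁻¹ ∈ VcSet M P E := Mod.H216.VcSet_mono M P hE h1'
    -- pull back
    have h3 : iota E M (g⁻¹ * (algebraMap E (FE E M) (⟨a, hE haE⟩ : E))⁻¹) =
        (iota E M g)⁻¹ * (H456.cst M a)⁻¹ := by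
      rw [map_mul, map_inv₀, map_inv₀, iota_algebraMap]
    rw [← h3, ← mem_Vinf_iff hV] at h2
    have hg0 : g ≠ 0 := by
      rintro rfl
      apply hn
      rw [map_zero]
      exact zero_mem _
    have h4 : g * (g⁻¹ * (algebraMap E (FE E M) (⟨a, hE haE⟩ : E))⁻¹) ∈ VM := mul_mem hg h2
    rw [← mul_assoc, mul_inv_cancel₀ hg0, one_mul, ← map_inv₀, algebraMap_mem_Vinf_iff hV] at h4
    apply hinv
    have h5 : algebraMap E Qb (⟨a, hE haE⟩ : E)⁻¹ ∈ P := h4
    rw [map_inv₀] at h5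
    exact h5

theorem mem_Vinf_of_mem_V (hE : E' ≤ E) {VM : ValuationSubring (FE E M)}
    (hV : IsVinf P E M VM) (hV' : (V' : Set (Om M)) = VcSet M P E')
    {g : FE E M} (h : iota E M g ∈ V') : g ∈ VM := by
  rw [mem_Vinf_iff hV]
  have h' : iota E M g ∈ (V' : Set (Om M)) := h
  rw [hV'] at h'
  exact Mod.H216.VcSet_mono M P hE h'

end Compare

theorem iota_mul_cE_inv (b : FE E M) (w : RE P E) :
    iota E M (b * (cE P E M w)⁻¹) = iota E M b * (H456.cst M ((w : E) : Qb))⁻¹ := by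
  rw [map_mul, map_inv₀, iota_cE]

/-! ### The two fields of `GoodRedAt` -/

/-- **QEP** of `GoodRedAt` from the S18 family of good models. -/
theorem qep_of_goodAt (hw : Irreducible w) {VM : ValuationSubring (FE E M)}
    (hV : IsVinf P E M VM) (y : FE E M) {S : Finset (Om M)}
    (hG : Mod.H216.GoodAt M P (iota E M y) S) :
    ∀ b ∈ chart P E M y, InW P E M VM w b → b * (cE P E M w)⁻¹ ∈ chart P E M y := by
  intro b hb hbW
  have hb1 := (mem_chart_iff P E M y b).1 hb
  have hfs := (finSupp_mem_chart P E M (iota E M y) hb1).and (FinSupp.mem (E := E) (w : E).2)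
  obtain ⟨E', hE, hfin, hb', hwE⟩ := hfs.exists_finite
  obtain ⟨V', w', hV', G⟩ := hG E' hfin
  have hw0 : H456.cst M ((w : E) : Qb) ≠ 0 := cst_unif_ne_zero hw
  have hcF : H456.cst M ((w : E) : Qb) ∈ Fc M E' :=
    H456.field_E_le_F M E' (H456.cst_mem_Ec M E' hwE)
  have h1 : iota E M (b * (cE P E M w)⁻¹) ∈ V' := by
    apply mem_V_of_mem_Vinf hE hV hV' G hbW
    rw [iota_mul_cE_inv]
    exact mul_mem hb'.1 (inv_mem hcF)
  rw [iota_mul_cE_inv] at h1
  have h2 : iota E M b * w'⁻¹ ∈ V' := by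
    have h := mul_mem h1 (G.R_le_V (unif_compare₁ hw hwE G))
    have e : iota E M b * (H456.cst M ((w : E) : Qb))⁻¹ * (H456.cst M ((w : E) : Qb) * w'⁻¹) =
        iota E M b * w'⁻¹ := by
      rw [mul_assoc, ← mul_assoc _ (H456.cst M ((w : E) : Qb)), inv_mul_cancel₀ hw0, one_mul]
    rw [e] at h
    exact h
  have h3 := G.qep_fin _ hb' h2
  have h4 := mul_mem_chart (fun r hr => G.E_le_F (G.R_le hr)) (unif_compare₂ hw hE hwE G) h3
  have e : w' * (H456.cst M ((w : E) : Qb))⁻¹ * (iota E M b * w'⁻¹) =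
      iota E M b * (H456.cst M ((w : E) : Qb))⁻¹ := by
    have := G.w_ne_zero
    field_simp
  rw [e] at h4
  rw [mem_chart_iff, iota_mul_cE_inv]
  exact chart_mono P M hE _ h4

/-- **Normality** of `GoodRedAt` from the S18 family of good models. -/
theorem normal_of_goodAt (hw : Irreducible w) {VM : ValuationSubring (FE E M)}
    (hV : IsVinf P E M VM) (y : FE E M) {S : Finset (Om M)}
    (hG : Mod.H216.GoodAt M P (iota E M y) S) :
    ∀ f ∈ VM,
      (∃ (n : ℕ) (c : Fin n → FE E M), (∀ i, c i ∈ chart P E M y) ∧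
        InW P E M VM w (f ^ n + ∑ i : Fin n, c i * f ^ (i : ℕ))) →
      ∃ b ∈ chart P E M y, InW P E M VM w (f - b) := by
  rintro f hf ⟨n, c, hc, hW⟩
  -- descend to a number field
  have hfs1 := finSupp_mem_Fc E M (iota_mem_Fc E M f)
  have hfs2 : FinSupp E (fun E' => ∀ i ∈ (Finset.univ : Finset (Fin n)),
      iota E M (c i) ∈ Alg.chart (Fc M E') (Rc M P E') (iota E M y)) :=
    FinSupp.forall_finset _ fun i _ =>
      finSupp_mem_chart P E M _ ((mem_chart_iff P E M y (c i)).1 (hc i))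
  have hfs := (hfs1.and hfs2).and (FinSupp.mem (E := E) (w : E).2)
  obtain ⟨E', hE, hfin, ⟨hf', hc'⟩, hwE⟩ := hfs.exists_finite
  obtain ⟨V', w', hV', G⟩ := hG E' hfin
  have hw0 : H456.cst M ((w : E) : Qb) ≠ 0 := cst_unif_ne_zero hw
  have hcF : H456.cst M ((w : E) : Qb) ∈ Fc M E' :=
    H456.field_E_le_F M E' (H456.cst_mem_Ec M E' hwE)
  -- the polynomial
  let p : Polynomial (Om M) := ∑ i : Fin n, C (iota E M (c i)) * X ^ (i : ℕ)
  have hpdeg : p.degree < n := Polynomial.degree_sum_fin_lt fun i => iota E M (c i)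
  have hQ : (X ^ n + p).Monic := Polynomial.monic_X_pow_add hpdeg
  have hQc : ∀ k, (X ^ n + p).coeff k ∈ Alg.chart (Fc M E') (Rc M P E') (iota E M y) := by
    intro k
    rw [Polynomial.coeff_add, Polynomial.coeff_X_pow, Polynomial.finsetSum_coeff]
    refine chart_add_mem ?_ (chart_sum_mem _ fun i _ => ?_)
    · split_ifs
      · exact chart_one_mem
      · exact chart_zero_mem
    · rw [Polynomial.coeff_C_mul_X_pow]
      split_ifs
      · exact hc' i (Finset.mem_univ i)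
      · exact chart_zero_mem
  have hev : (X ^ n + p).eval (iota E M f) = iota E M (f ^ n + ∑ i : Fin n, c i * f ^ (i : ℕ)) := by
    rw [Polynomial.eval_add, Polynomial.eval_pow, Polynomial.eval_X, Polynomial.eval_finsetSum,
      map_add, map_pow, map_sum]
    congr 1
    refine Finset.sum_congr rfl fun i _ => ?_
    rw [Polynomial.eval_mul, Polynomial.eval_C, Polynomial.eval_pow, Polynomial.eval_X, map_mul,
      map_pow]
  have hv : iota E M f ∈ V' := mem_V_of_mem_Vinf hE hV hV' G hf hf'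
  have hQv : (X ^ n + p).eval (iota E M f) * w'⁻¹ ∈ V' := by
    have h1 : iota E M ((f ^ n + ∑ i : Fin n, c i * f ^ (i : ℕ)) * (cE P E M w)⁻¹) ∈ V' := by
      apply mem_V_of_mem_Vinf hE hV hV' G hW
      rw [iota_mul_cE_inv, ← hev]
      refine mul_mem ?_ (inv_mem hcF)
      rw [Polynomial.eval_eq_sum_range]
      exact sum_mem fun k _ => mul_mem (hQc k).1 (pow_mem hf' k)
    rw [iota_mul_cE_inv, ← hev] at h1
    have h := mul_mem h1 (G.R_le_V (unif_compare₁ hw hwE G))
    have e : (X ^ n + p).eval (iota E M f) * (H456.cst M ((w : E) : Qb))⁻¹ *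
        (H456.cst M ((w : E) : Qb) * w'⁻¹) = (X ^ n + p).eval (iota E M f) * w'⁻¹ := by
      rw [mul_assoc, ← mul_assoc _ (H456.cst M ((w : E) : Qb)), inv_mul_cancel₀ hw0, one_mul]
    rw [e] at h
    exact h
  obtain ⟨b', hb', hvb⟩ := normal_of_goodModel G hv (X ^ n + p) hQ hQc hQv
  obtain ⟨b, rfl⟩ := exists_iota_eq E M (Mod.H216.Fc_mono M hE hb'.1)
  refine ⟨b, (mem_chart_iff P E M y b).2 (chart_mono P M hE _ hb'), ?_⟩
  show (f - b) * (cE P E M w)⁻¹ ∈ VM
  apply mem_Vinf_of_mem_V hE hV hV'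
  rw [iota_mul_cE_inv, map_sub]
  have h := mul_mem hvb (G.R_le_V (unif_compare₂ hw hE hwE G))
  have e : (iota E M f - iota E M b) * w'⁻¹ * (w' * (H456.cst M ((w : E) : Qb))⁻¹) =
      (iota E M f - iota E M b) * (H456.cst M ((w : E) : Qb))⁻¹ := by
    rw [mul_assoc, ← mul_assoc _ w', inv_mul_cancel₀ G.w_ne_zero, one_mul]
  rw [e] at h
  exact h

/-- **`GoodRedAt` from the S18 family of good models** (any `E` with `w` irreducible in `R_E`). -/
theorem goodRedAt_of_goodAt (hw : Irreducible w) {VM : ValuationSubring (FE E M)}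
    (hV : IsVinf P E M VM) (y : FE E M) {S : Finset (Om M)}
    (hG : Mod.H216.GoodAt M P (iota E M y) S) : GoodRedAt P E M w VM y :=
  ⟨qep_of_goodAt hw hV y hG, normal_of_goodAt hw hV y hG⟩

/-- The S18 family of good models at `x⁻¹`. -/
theorem goodAt_inv {A : ValuationSubring Qb} {x : Om M} {S : Finset (Om M)}
    (hG : Mod.H216.GoodAt M A x S) :
    ∃ S' : Finset (Om M), Mod.H216.GoodAt M A x⁻¹ S' := by
  classical
  refine ⟨insert 0 (Finset.image (fun x => x⁻¹) (S.erase 0)), fun E' hfin => ?_⟩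
  obtain ⟨V', w', hV', G⟩ := hG E' hfin
  exact ⟨V', w', hV', H425.goodModel_inv G⟩

/-- **`GoodRedAt` in the chart at infinity.** -/
theorem goodRedAt_inv_of_goodAt (hw : Irreducible w) {VM : ValuationSubring (FE E M)}
    (hV : IsVinf P E M VM) (y : FE E M) {S : Finset (Om M)}
    (hG : Mod.H216.GoodAt M P (iota E M y) S) : GoodRedAt P E M w VM y⁻¹ := by
  obtain ⟨S', hG'⟩ := goodAt_inv hG
  rw [← iota_inv] at hG'
  exact goodRedAt_of_goodAt hw hV y⁻¹ hG'

end Fermat.Agent.A2.Mod.H456
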