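import Fermat.Agent.A2.Mod.H456.GoodRedIota
import Fermat.Agent.S18.Mod.H216.Family

/-!
# A2 / MOD, producer of `GoodRedAt` (helper456), part C: finite descent inside `E`

`FinSupp E p` : the property `p` of intermediate fields holds for every field containing a
certain finite subset of `E`.  Membership in `Rc`, `Fc`, `polyRing`, `chart` of the S18 concrete
objects has finite support; `FinSupp.exists_finite` produces a number field `E' ≤ E`.
-/

set_option autoImplicit false
set_option linter.style.haveILetI false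
set_option linter.unusedSectionVars false

noncomputable section

namespace Fermat.Agent.A2.Mod.H456

open ModularCurve AlgebraicCurve HahnSeries Polynomial
open Fermat.Agent.S18 Fermat.Agent.S18.Mod

/-- `p` holds for every intermediate field containing a certain finite subset of `E`. -/
def FinSupp (E : IntermediateField ℚ Qb) (p : IntermediateField ℚ Qb → Prop) : Prop :=
  ∃ T : Finset Qb, (∀ a ∈ T, a ∈ E) ∧ ∀ E' : IntermediateField ℚ Qb, (∀ a ∈ T, a ∈ E') → p E'

namespace FinSupp

variable {E : IntermediateField ℚ Qb} {p p' : IntermediateField ℚ Qb → Prop}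

theorem of_forall (h : ∀ E', p E') : FinSupp E p :=
  ⟨∅, fun _ ha => absurd ha (Finset.notMem_empty _), fun E' _ => h E'⟩

theorem mono (h : FinSupp E p) (hpp : ∀ E', p E' → p' E') : FinSupp E p' := by
  obtain ⟨T, hT, h⟩ := h
  exact ⟨T, hT, fun E' hE' => hpp E' (h E' hE')⟩

theorem and (h : FinSupp E p) (h' : FinSupp E p') : FinSupp E (fun E' => p E' ∧ p' E') := by
  classical
  obtain ⟨T, hT, h⟩ := h
  obtain ⟨T', hT', h'⟩ := h'
  refine ⟨T ∪ T', fun a ha => ?_, fun E' hE' => ⟨h E' fun a ha => hE' a ?_, h' E' fun a ha => hE' a ?_⟩⟩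
  · rcases Finset.mem_union.1 ha with ha | ha
    · exact hT a ha
    · exact hT' a ha
  · exact Finset.mem_union_left _ ha
  · exact Finset.mem_union_right _ ha

theorem map₂ {p'' : IntermediateField ℚ Qb → Prop} (h : FinSupp E p) (h' : FinSupp E p')
    (hpp : ∀ E', p E' → p' E' → p'' E') : FinSupp E p'' :=
  (h.and h').mono fun E' hE' => hpp E' hE'.1 hE'.2

theorem forall_finset {ι : Type*} (s : Finset ι) {P : ι → IntermediateField ℚ Qb → Prop}
    (h : ∀ i ∈ s, FinSupp E (P i)) : FinSupp E (fun E' => ∀ i ∈ s, P i E') := by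
  classical
  induction s using Finset.induction_on with
  | empty => exact of_forall fun E' i hi => absurd hi (Finset.notMem_empty _)
  | insert a s ha ih =>
    have h1 := h a (Finset.mem_insert_self a s)
    have h2 := ih fun i hi => h i (Finset.mem_insert_of_mem hi)
    refine (h1.and h2).mono fun E' hE' i hi => ?_
    rcases Finset.mem_insert.1 hi with rfl | hi
    · exact hE'.1
    · exact hE'.2 i hi

theorem mem {a : Qb} (ha : a ∈ E) : FinSupp E (fun E' => a ∈ E') :=
  ⟨{a}, fun b hb => by rw [Finset.mem_singleton.1 hb]; exact ha,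
    fun E' hE' => hE' a (Finset.mem_singleton_self a)⟩

/-- A property with finite support holds for some number field `E' ≤ E`. -/
theorem exists_finite (h : FinSupp E p) :
    ∃ E' : IntermediateField ℚ Qb, E' ≤ E ∧ FiniteDimensional ℚ E' ∧ p E' := by
  obtain ⟨T, hT, h⟩ := h
  refine ⟨IntermediateField.adjoin ℚ (T : Set Qb), ?_, ?_, ?_⟩
  · rw [IntermediateField.adjoin_le_iff]
    exact fun a ha => hT a ha
  · haveI : Finite (T : Set Qb) := T.finite_toSet.to_subtype
    exact IntermediateField.finiteDimensional_adjoin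
      (fun a _ => ((AlgebraicClosure.isAlgebraic ℚ).isAlgebraic a).isIntegral)
  · exact h _ fun a ha => IntermediateField.subset_adjoin ℚ _ ha

end FinSupp

variable (P : ValuationSubring Qb) (E : IntermediateField ℚ Qb) (M : ℕ)

theorem finSupp_mem_Rc {z : Om M} (hz : z ∈ Rc M P E) :
    FinSupp E (fun E' => z ∈ Rc M P E') := by
  obtain ⟨c, hcP, hcE, rfl⟩ := (H456.mem_Rc_iff M P E).1 hz
  exact (FinSupp.mem hcE).mono fun E' hE' => H456.cst_mem_Rc M P E' hcP hE'

theorem finSupp_mem_Ec {z : Om M} (hz : z ∈ Ec M E) :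
    FinSupp E (fun E' => z ∈ Ec M E') := by
  obtain ⟨c, hcE, rfl⟩ := (H456.mem_Ec_iff M E).1 hz
  exact (FinSupp.mem hcE).mono fun E' hE' => H456.cst_mem_Ec M E' hE'

theorem finSupp_mem_Fc {f : Om M} (hf : f ∈ Fc M E) :
    FinSupp E (fun E' => f ∈ Fc M E') := by
  unfold Fc at hf
  induction hf using Subfield.closure_induction with
  | mem y hy =>
    rcases hy with hy | hy
    · exact (finSupp_mem_Ec E M hy).mono fun E' hE' => H456.field_E_le_F M E' hE'
    · exact FinSupp.of_forall fun E' => Subfield.subset_closure (Or.inr hy)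
  | one => exact FinSupp.of_forall fun E' => one_mem _
  | add x y _ _ hx hy => exact hx.map₂ hy fun E' h1 h2 => add_mem h1 h2
  | neg x _ hx => exact hx.mono fun E' h1 => neg_mem h1
  | inv x _ hx => exact hx.mono fun E' h1 => inv_mem h1
  | mul x y _ _ hx hy => exact hx.map₂ hy fun E' h1 h2 => mul_mem h1 h2

theorem finSupp_mem_polyRing (x : Om M) {z : Om M} (hz : z ∈ Alg.polyRing (Rc M P E) x) :
    FinSupp E (fun E' => z ∈ Alg.polyRing (Rc M P E') x) := by
  unfold Alg.polyRing at hz
  induction hz using Subring.closure_induction with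
  | mem y hy =>
    rcases hy with hy | hy
    · exact (finSupp_mem_Rc P E M hy).mono fun E' hE' => Subring.subset_closure (Or.inl hE')
    · exact FinSupp.of_forall fun E' => Subring.subset_closure (Or.inr hy)
  | zero => exact FinSupp.of_forall fun E' => zero_mem _
  | one => exact FinSupp.of_forall fun E' => one_mem _
  | add x y _ _ hx hy => exact hx.map₂ hy fun E' h1 h2 => add_mem h1 h2
  | neg x _ hx => exact hx.mono fun E' h1 => neg_mem h1
  | mul x y _ _ hx hy => exact hx.map₂ hy fun E' h1 h2 => mul_mem h1 h2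

theorem finSupp_mem_chart (x : Om M) {b : Om M} (hb : b ∈ Alg.chart (Fc M E) (Rc M P E) x) :
    FinSupp E (fun E' => b ∈ Alg.chart (Fc M E') (Rc M P E') x) := by
  obtain ⟨hF, hint⟩ := hb
  obtain ⟨q, hq, hc, h0⟩ := (isIntegral_subring_iff _ _).1 hint
  have h1 := finSupp_mem_Fc E M hF
  have h2 : FinSupp E (fun E' => ∀ i ∈ q.support, q.coeff i ∈ Alg.polyRing (Rc M P E') x) :=
    FinSupp.forall_finset q.support fun i _ => finSupp_mem_polyRing P E M x (hc i)
  refine h1.map₂ h2 fun E' hE'1 hE'2 => ⟨hE'1, ?_⟩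
  rw [isIntegral_subring_iff]
  refine ⟨q, hq, fun i => ?_, h0⟩
  by_cases hi : i ∈ q.support
  · exact hE'2 i hi
  · rw [Polynomial.notMem_support_iff.1 hi]
    exact zero_mem _

/-! ### Monotonicity -/

variable {E} {E' : IntermediateField ℚ Qb}

theorem polyRing_mono (h : E' ≤ E) (x : Om M) :
    Alg.polyRing (Rc M P E') x ≤ Alg.polyRing (Rc M P E) x :=
  Subring.closure_mono (Set.union_subset_union_left _ (Mod.H216.Rc_mono M P h))

theorem chart_mono (h : E' ≤ E) (x : Om M) {b : Om M}
    (hb : b ∈ Alg.chart (Fc M E') (Rc M P E') x) : b ∈ Alg.chart (Fc M E) (Rc M P E) x :=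
  ⟨Mod.H216.Fc_mono M h hb.1, isIntegral_subring_mono (polyRing_mono P M h x) hb.2⟩

/-- The chart is stable under multiplication by elements of `R`. -/
theorem mul_mem_chart {Ω : Type*} [Field Ω] {Fc : Subfield Ω} {R : Subring Ω} {x r b : Ω}
    (hRF : ∀ r ∈ R, r ∈ Fc) (hr : r ∈ R) (hb : b ∈ Alg.chart Fc R x) :
    r * b ∈ Alg.chart Fc R x := by
  refine ⟨mul_mem (hRF r hr) hb.1, ?_⟩
  have hr' : r ∈ Alg.polyRing R x := Subring.subset_closure (Or.inl hr)
  have h1 : IsIntegral (Alg.polyRing R x) r :=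
    isIntegral_algebraMap (R := Alg.polyRing R x) (x := ⟨r, hr'⟩)
  exact h1.mul hb.2

end Fermat.Agent.A2.Mod.H456
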