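import Fermat.Agent.A2.Mod.Spec
import Fermat.Agent.S18.H576.Transport
import Fermat.Agent.S18.Mod.H216.Basis
import Fermat.Agent.S18.H456.ModBasic

/-!
# A2 / MOD, producer of `GoodRedAt` (helper456), part B: dictionary `F_{M,E} ↔ Fc M E`

`iota E M : FE E M →+* Om M` is the coefficient embedding `E((t)) → Q̄((t))` restricted to
`F_{M,E} = E(j_d : d ∣ M)`; it is injective with image `Fc M E` (S18 concrete objects).

* `mem_Vinf_iff`  : `g ∈ V∞  ↔  iota g ∈ VcSet M P E`   (any `E`, any `V∞` with `IsVinf`);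
* `mem_chart_iff` : `f ∈ chart P E M y  ↔  iota f ∈ Alg.chart (Fc M E) (Rc M P E) (iota y)`;
* `isIntegral_subring_iff` : integrality over a subring, in polynomial form.
-/

set_option autoImplicit false
set_option linter.style.haveILetI false
set_option linter.unusedSectionVars false
set_option synthInstance.maxHeartbeats 400000
set_option maxHeartbeats 1600000

noncomputable section

namespace Fermat.Agent.A2.Mod.H456

open ModularCurve AlgebraicCurve HahnSeries Polynomial
open Fermat.Agent.S18 Fermat.Agent.S18.Mod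

/-! ### Integrality over a subring, polynomial form -/

theorem isIntegral_subring_iff {Ω : Type*} [CommRing Ω] [Nontrivial Ω] (T : Subring Ω) (b : Ω) :
    IsIntegral T b ↔ ∃ q : Polynomial Ω, q.Monic ∧ (∀ i, q.coeff i ∈ T) ∧ q.eval b = 0 := by
  constructor
  · rintro ⟨p, hp, h0⟩
    refine ⟨p.map T.subtype, hp.map _, fun i => ?_, ?_⟩
    · rw [Polynomial.coeff_map]
      exact (p.coeff i).2
    · rw [Polynomial.eval_map]
      exact h0
  · rintro ⟨q, hq, hc, h0⟩
    have hlift : q ∈ Polynomial.lifts T.subtype := by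
      rw [Polynomial.lifts_iff_coeff_lifts]
      intro n
      exact ⟨⟨q.coeff n, hc n⟩, rfl⟩
    obtain ⟨p, hp, -, hpm⟩ := Polynomial.lifts_and_degree_eq_and_monic hlift hq
    refine ⟨p, hpm, ?_⟩
    have : p.eval₂ (algebraMap T Ω) b = (p.map T.subtype).eval b := by
      rw [Polynomial.eval_map]
      rfl
    rw [this, hp, h0]

theorem isIntegral_subring_mono {Ω : Type*} [CommRing Ω] [Nontrivial Ω] {T T' : Subring Ω} (h : T ≤ T')
    {b : Ω} (hb : IsIntegral T b) : IsIntegral T' b := by
  rw [isIntegral_subring_iff] at hb ⊢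
  obtain ⟨q, hq, hc, h0⟩ := hb
  exact ⟨q, hq, fun i => h (hc i), h0⟩

theorem isIntegral_subring_of_eval₂ {B Ω : Type*} [CommRing B] [CommRing Ω] [Nontrivial Ω]
    (T : Subring Ω)
    (g : B →+* Ω) (p : Polynomial B) (hp : p.Monic) (hc : ∀ i, g (p.coeff i) ∈ T) {b : Ω}
    (h0 : p.eval₂ g b = 0) : IsIntegral T b := by
  rw [isIntegral_subring_iff]
  refine ⟨p.map g, hp.map g, fun i => ?_, ?_⟩
  · rw [Polynomial.coeff_map]
    exact hc i
  · rw [Polynomial.eval_map]
    exact h0

/-! ### The embedding `iota` -/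

variable (P : ValuationSubring Qb) (E : IntermediateField ℚ Qb) (M : ℕ)

/-- The coefficient embedding `F_{M,E} → Ω = F_M`. -/
def iota : FE E M →+* Om M where
  toFun g := ⟨coeffMap (algebraMap E Qb) (g : LaurentSeries E),
    H602.coeffMap_mem_laurentBaseChange _ _ g.2⟩
  map_one' := Subtype.ext (by simp)
  map_mul' x y := Subtype.ext (by simp)
  map_zero' := Subtype.ext (by simp)
  map_add' x y := Subtype.ext (by simp)

theorem coe_iota (g : FE E M) :
    ((iota E M g : Om M) : LaurentSeries Qb) = coeffMap (algebraMap E Qb) (g : LaurentSeries E) :=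
  rfl

theorem iota_injective : Function.Injective (iota E M) := by
  intro x y h
  have h1 : coeffMap (algebraMap E Qb) (x : LaurentSeries E) =
      coeffMap (algebraMap E Qb) (y : LaurentSeries E) := congrArg Subtype.val h
  exact Subtype.ext (H602.coeffMap_injective _ (algebraMap E Qb).injective h1)

theorem iota_mem_Fc (g : FE E M) : iota E M g ∈ Fc M E := by
  obtain ⟨f, hf, hfg⟩ := H576.exists_mem_Fc_of_mem_FE (M := M) g.2
  have : iota E M g = f := Subtype.ext (by rw [coe_iota, hfg])
  rw [this]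
  exact hf

theorem exists_iota_eq {f : Om M} (hf : f ∈ Fc M E) : ∃ g : FE E M, iota E M g = f := by
  obtain ⟨g, hg, hgf⟩ := Mod.H216.exists_FE_of_Fc M E hf
  exact ⟨⟨g, hg⟩, Subtype.ext hgf⟩

theorem iota_algebraMap (e : E) :
    iota E M (algebraMap E (FE E M) e) = H456.cst M (e : Qb) := by
  apply Subtype.ext
  rw [coe_iota]
  show coeffMap (algebraMap E Qb) (algebraMap E (LaurentSeries E) e) = _
  rw [H602.coeffMap_algebraMap']
  rfl

theorem iota_cE (r : RE P E) : iota E M (cE P E M r) = H456.cst M ((r : E) : Qb) :=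
  iota_algebraMap E M (r : E)

theorem iota_jE (d : ℕ) [NeZero d] (hd : d ∣ M) : iota E M (jE E M d hd) = jd M d hd := by
  apply Subtype.ext
  rw [coe_iota]
  show coeffMap (algebraMap E Qb) (coeffEmb E (qExpand ℚ d jq)) = coeffEmb Qb (qExpand ℚ d jq)
  exact H602.coeffMap_coeffEmb' _ _

theorem iota_inv (g : FE E M) : iota E M g⁻¹ = (iota E M g)⁻¹ := map_inv₀ (iota E M) g

/-! ### `V∞` and `VcSet` -/

variable {P E M}

/-- **Dictionary for the Gauss valuation ring**: `g ∈ V∞ ↔ iota g ∈ VcSet M P E`. -/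
theorem mem_Vinf_iff {V : ValuationSubring (FE E M)} (hV : IsVinf P E M V) (g : FE E M) :
    g ∈ V ↔ iota E M g ∈ VcSet M P E := by
  rw [hV g]
  constructor
  · rintro ⟨U₁, U₂, hred, hmem, heq⟩
    have hmem₁ : H708.incl (RE P E) U₁ ∈ laurentBaseChange E (modularFunctionFieldFull M) := by
      rw [← heq]
      exact mul_mem g.2 hmem
    refine H576.mem_VcSet_of_rep (M := M) (A := P) (E := E) ⟨U₁, hmem₁⟩ ⟨U₂, hmem⟩ hred ?_
    apply Subtype.ext
    show coeffMap (algebraMap E Qb) (g : LaurentSeries E) *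
        coeffMap (algebraMap E Qb) (coeffMap (RE P E).subtype U₂) =
      coeffMap (algebraMap E Qb) (coeffMap (RE P E).subtype U₁)
    rw [← map_mul]
    exact congrArg _ heq
  · intro h
    obtain ⟨V₁, V₂, hred, heq⟩ := H576.exists_rep_of_mem_VcSet h
    refine ⟨V₁.1, V₂.1, hred, V₂.2, ?_⟩
    apply H602.coeffMap_injective _ (algebraMap E Qb).injective
    rw [map_mul]
    exact congrArg Subtype.val heq

/-- `V∞ ∩ E = R_E`. -/
theorem algebraMap_mem_Vinf_iff {V : ValuationSubring (FE E M)} (hV : IsVinf P E M V) (e : E) :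
    algebraMap E (FE E M) e ∈ V ↔ e ∈ RE P E := by
  rw [hV]
  have he : ((algebraMap E (FE E M) e : FE E M) : LaurentSeries E) * H708.incl (RE P E) 1 =
      H708.cst e * H708.incl (RE P E) 1 := rfl
  exact H708.isGaussInt_iff_of_normal_form (by rw [map_one]; exact one_ne_zero)
    (by rw [map_one]; exact one_ne_zero) (by rw [map_one]; exact one_mem _) he

/-! ### Charts -/

variable (P E M)

/-- The structure map `R_E[X] → F_{M,E}`, `X ↦ y`. -/
abbrev psi (y : FE E M) : Polynomial (RE P E) →+* FE E M :=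
  Polynomial.eval₂RingHom ((algebraMap E (FE E M)).comp (RE P E).subtype) y

theorem iota_psi_C (y : FE E M) (r : RE P E) :
    iota E M (psi P E M y (C r)) = H456.cst M ((r : E) : Qb) := by
  rw [psi, Polynomial.coe_eval₂RingHom, Polynomial.eval₂_C]
  exact iota_algebraMap E M (r : E)

theorem iota_psi_X (y : FE E M) : iota E M (psi P E M y X) = iota E M y := by
  rw [psi, Polynomial.coe_eval₂RingHom, Polynomial.eval₂_X]

theorem cst_mem_Rc_of_mem_RE (r : RE P E) : H456.cst M ((r : E) : Qb) ∈ Rc M P E :=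
  H456.cst_mem_Rc M P E r.2 (r : E).2

theorem iota_psi_mem_polyRing (y : FE E M) (a : Polynomial (RE P E)) :
    iota E M (psi P E M y a) ∈ Alg.polyRing (Rc M P E) (iota E M y) := by
  induction a using Polynomial.induction_on' with
  | add p q hp hq =>
    rw [map_add, map_add]
    exact add_mem hp hq
  | monomial n r =>
    rw [← Polynomial.C_mul_X_pow_eq_monomial, map_mul, map_mul, map_pow, map_pow, iota_psi_C,
      iota_psi_X]
    have h1 : H456.cst M ((r : E) : Qb) ∈ Alg.polyRing (Rc M P E) (iota E M y) :=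
      Subring.subset_closure (Or.inl (cst_mem_Rc_of_mem_RE P E M r))
    have h2 : iota E M y ∈ Alg.polyRing (Rc M P E) (iota E M y) :=
      Subring.subset_closure (Or.inr rfl)
    exact mul_mem h1 (pow_mem h2 n)

theorem polyRing_le_range (y : FE E M) :
    Alg.polyRing (Rc M P E) (iota E M y) ≤ ((iota E M).comp (psi P E M y)).range := by
  refine Subring.closure_le.2 ?_
  rintro z (hz | hz)
  · obtain ⟨c, hcP, hcE, rfl⟩ := (H456.mem_Rc_iff M P E).1 hz
    exact ⟨C (⟨⟨c, hcE⟩, hcP⟩ : RE P E), iota_psi_C P E M y _⟩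
  · rw [Set.mem_singleton_iff.1 hz]
    exact ⟨X, iota_psi_X P E M y⟩

/-- **Dictionary for the charts.** -/
theorem mem_chart_iff (y f : FE E M) :
    f ∈ chart P E M y ↔ iota E M f ∈ Alg.chart (Fc M E) (Rc M P E) (iota E M y) := by
  constructor
  · rintro ⟨p, hp, h0⟩
    refine ⟨iota_mem_Fc E M f, ?_⟩
    refine isIntegral_subring_of_eval₂ _ ((iota E M).comp (psi P E M y)) p hp
      (fun i => iota_psi_mem_polyRing P E M y _) ?_
    have h := Polynomial.hom_eval₂ p (psi P E M y) (iota E M) f
    rw [← h]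
    show iota E M (p.eval₂ (psi P E M y) f) = 0
    have h0' : p.eval₂ (psi P E M y) f = 0 := h0
    rw [h0', map_zero]
  · rintro ⟨-, hint⟩
    obtain ⟨q, hq, hc, h0⟩ := (isIntegral_subring_iff _ _).1 hint
    have hlift : q ∈ Polynomial.lifts ((iota E M).comp (psi P E M y)) := by
      rw [Polynomial.lifts_iff_coeff_lifts]
      intro n
      exact polyRing_le_range P E M y (hc n)
    obtain ⟨p, hp, -, hpm⟩ := Polynomial.lifts_and_degree_eq_and_monic hlift hq
    refine ⟨p, hpm, ?_⟩
    apply iota_injective E M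
    rw [map_zero]
    have h := Polynomial.hom_eval₂ p (psi P E M y) (iota E M) f
    show iota E M (p.eval₂ (psi P E M y) f) = 0
    rw [h, ← Polynomial.eval_map, hp, h0]

end Fermat.Agent.A2.Mod.H456
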