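import Fermat.Agent.A2.Mod.H456.GoodRed
import Fermat.Agent.S18.H24.NodeMod

/-!
# A2 / MOD, producer of `GoodRedAt` (helper456), part E: the coordinate `j`, `q ≥ 5`

`goodRedAt_j`, `goodRedAt_j_inv` : UNCONDITIONAL `GoodRedAt P E M w VM j` and `… j⁻¹` for `q ≥ 5`
(S18 node_mod `H24.goodAt_of_isCoordinate` + `goodRedAt_of_goodAt`).
-/

set_option autoImplicit false
set_option linter.style.haveILetI false
set_option linter.unusedSectionVars false
set_option synthInstance.maxHeartbeats 400000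
set_option maxHeartbeats 1600000

noncomputable section

namespace Fermat.Agent.A2.Mod.H456

open ModularCurve AlgebraicCurve HahnSeries Polynomial
open Fermat.Agent.S18 Fermat.Agent.S18.Mod

variable {P : ValuationSubring Qb} {E : IntermediateField ℚ Qb} {M q : ℕ} {w : RE P E}

/-- The S18 family of good models for the coordinate `j`, `q ≥ 5`. -/
theorem goodAt_j [NeZero M] (hS : Setting P E M q w) (h5 : 5 ≤ q) :
    ∃ S : Finset (Om M), Mod.H216.GoodAt M P (iota E M (jE E M 1 (one_dvd M))) S := by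
  classical
  haveI : Fact q.Prime := ⟨hS.q_prime⟩
  refine ⟨{0, 1728}, ?_⟩
  rw [iota_jE]
  exact H24.goodAt_of_isCoordinate M P hS.q_not_dvd hS.lies_over
    (Or.inl ⟨h5, rfl, fun s => by simp⟩)

/-- **Good reduction at level `M`, chart of `j`, `q ≥ 5`.** -/
theorem goodRedAt_j [NeZero M] (hS : Setting P E M q w) (h5 : 5 ≤ q)
    {VM : ValuationSubring (FE E M)} (hV : IsVinf P E M VM) :
    GoodRedAt P E M w VM (jE E M 1 (one_dvd M)) := by
  obtain ⟨S, hG⟩ := goodAt_j hS h5
  exact goodRedAt_of_goodAt hS.unif hV _ hG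

/-- **Good reduction at level `M`, chart of `1/j`, `q ≥ 5`.** -/
theorem goodRedAt_j_inv [NeZero M] (hS : Setting P E M q w) (h5 : 5 ≤ q)
    {VM : ValuationSubring (FE E M)} (hV : IsVinf P E M VM) :
    GoodRedAt P E M w VM (jE E M 1 (one_dvd M))⁻¹ := by
  obtain ⟨S, hG⟩ := goodAt_j hS h5
  exact goodRedAt_inv_of_goodAt hS.unif hV _ hG

end Fermat.Agent.A2.Mod.H456
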